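import Fermat.Agent.S55.Coh.Func
import Fermat.Agent.S55.Places.Defs

/-!
# S55: shared arithmetic definitions

Level structures `Lall`, `LS S` on `GQ = Gal(Qbar/ℚ)`, the representations `chr χ`, `mu p`, `Gm`,
the inclusion `iota p : μ_p → Qbar^×`, the Kummer cochain `kum`.
(The carry cochain `carry`, `cyc` is in `L/Defs.lean`.)
-/

set_option autoImplicit false

open scoped Pointwise

noncomputable section

namespace Fermat.Agent.S55

open Places ExtCitation

attribute [local instance] isAlgClosureQbar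

/-! ### normal closures, inertia groups -/

theorem map_normalClosure (E : NF) (σ : GQ) :
    (IntermediateField.normalClosure ℚ E Qbar).map (σ : Qbar →ₐ[ℚ] Qbar) =
      IntermediateField.normalClosure ℚ E Qbar :=
  IntermediateField.normal_iff_forall_map_eq'.mp (normalClosure.normal ℚ E Qbar) σ

theorem normal_fixingSubgroup_normalClosure (E : NF) :
    (IntermediateField.normalClosure ℚ E Qbar).fixingSubgroup.Normal := by
  apply Subgroup.Normal.of_conjugate_fixed (fun σ ↦ ?_)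
  rw [← IsGalois.map_fixingSubgroup, map_normalClosure]

theorem finiteIndex_fixingSubgroup (E : NF) (h : FiniteDimensional ℚ E) :
    E.fixingSubgroup.FiniteIndex := by
  constructor
  rw [← IntermediateField.finrank_eq_fixingSubgroup_index]
  exact Module.finrank_pos.ne'

theorem finiteDimensional_normalClosure (E : NF) (h : FiniteDimensional ℚ E) :
    FiniteDimensional ℚ (IntermediateField.normalClosure ℚ E Qbar) :=
  normalClosure.is_finiteDimensional ℚ E Qbar

/-- elementwise description of the Prelude inertia group -/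
theorem mem_inertia_iff (A : ValuationSubring Qbar) (σ : GQ) :
    σ ∈ A.inertiaSubgroupIn ℚ ↔ σ • A = A ∧ ∀ x ∈ A, σ x - x ∈ A.nonunits := by
  constructor
  · intro hσ
    obtain ⟨τ, hτ, rfl⟩ := Subgroup.mem_map.mp hσ
    refine ⟨τ.2, fun x hx => ?_⟩
    have h1 : MulSemiringAction.toRingAut (A.decompositionSubgroup ℚ)
        (IsLocalRing.ResidueField A) τ = 1 := hτ
    have h2 : τ • IsLocalRing.residue A ⟨x, hx⟩ = IsLocalRing.residue A ⟨x, hx⟩ :=
      congrArg (fun f => f (IsLocalRing.residue A ⟨x, hx⟩)) h1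
    rw [← IsLocalRing.ResidueField.residue_smul] at h2
    have h3 : (τ • (⟨x, hx⟩ : A)) - ⟨x, hx⟩ ∈ IsLocalRing.maximalIdeal A := by
      rw [← IsLocalRing.residue_eq_zero_iff, map_sub, h2, sub_self]
    rw [A.valuation_lt_one_iff] at h3
    exact (A.mem_nonunits_iff).2 h3
  · rintro ⟨h1, h2⟩
    refine Subgroup.mem_map.mpr ⟨⟨σ, h1⟩, ?_, rfl⟩
    change MulSemiringAction.toRingAut (A.decompositionSubgroup ℚ)
        (IsLocalRing.ResidueField A) ⟨σ, h1⟩ = 1
    ext y
    obtain ⟨x, rfl⟩ := IsLocalRing.residue_surjective y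
    change (⟨σ, h1⟩ : A.decompositionSubgroup ℚ) • IsLocalRing.residue A x
      = IsLocalRing.residue A x
    rw [← IsLocalRing.ResidueField.residue_smul, ← sub_eq_zero, ← map_sub,
      IsLocalRing.residue_eq_zero_iff, A.valuation_lt_one_iff]
    exact (A.mem_nonunits_iff).1 (h2 x x.2)

theorem mem_smul_valuationSubring_iff (A : ValuationSubring Qbar) (g : GQ) (x : Qbar) :
    x ∈ g • A ↔ g⁻¹ x ∈ A := by
  have h : g • (g⁻¹ x) ∈ g • A ↔ g⁻¹ x ∈ A := ValuationSubring.smul_mem_pointwise_smul_iff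
  rw [← h]
  simp [AlgEquiv.smul_def]

theorem mem_nonunits_smul_iff (A : ValuationSubring Qbar) (g : GQ) (x : Qbar) :
    x ∈ (g • A).nonunits ↔ g⁻¹ x ∈ A.nonunits := by
  by_cases hx : x = 0
  · subst hx
    simp
  have hx' : g⁻¹ x ≠ 0 := by simpa using hx
  have key : ∀ (B : ValuationSubring Qbar) (y : Qbar), y ≠ 0 → (y ∈ B.nonunits ↔ y⁻¹ ∉ B) := by
    intro B y hy
    rw [ValuationSubring.mem_nonunits_iff, ← B.valuation_le_one_iff, map_inv₀, not_le,
      one_lt_inv₀ (zero_lt_iff.mpr ((Valuation.ne_zero_iff _).mpr hy))]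
  rw [key _ _ hx, key _ _ hx', mem_smul_valuationSubring_iff, map_inv₀]

theorem liesOverPrime_smul (A : ValuationSubring Qbar) (g : GQ) {l : ℕ}
    (h : A.LiesOverPrime l) : (g • A).LiesOverPrime l := by
  unfold ValuationSubring.LiesOverPrime at *
  rw [mem_nonunits_smul_iff]
  simpa using h

theorem conj_mem_inertia_smul (A : ValuationSubring Qbar) (g σ : GQ)
    (h : σ ∈ A.inertiaSubgroupIn ℚ) : g * σ * g⁻¹ ∈ (g • A).inertiaSubgroupIn ℚ := by
  rw [mem_inertia_iff] at h ⊢
  refine ⟨?_, fun x hx => ?_⟩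
  · rw [mul_smul, mul_smul, inv_smul_smul, h.1]
  · rw [mem_smul_valuationSubring_iff] at hx
    rw [mem_nonunits_smul_iff]
    have := h.2 _ hx
    simpa [AlgEquiv.mul_apply] using this

theorem isUnramifiedOutside_map {S : Finset Nat.Primes} {E : NF} (hE : E.IsUnramifiedOutside S)
    (σ : GQ) : ∀ q : Nat.Primes, q ∉ S → ∀ A : ValuationSubring Qbar,
      A.LiesOverPrime (q : ℕ) → A.inertiaSubgroupIn ℚ ≤
        (E.map (σ : Qbar →ₐ[ℚ] Qbar)).fixingSubgroup := by
  intro q hq A hA τ hτ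
  have h1 := hE.2 q hq (σ⁻¹ • A) (liesOverPrime_smul A σ⁻¹ hA) (conj_mem_inertia_smul A σ⁻¹ τ hτ)
  rw [IntermediateField.mem_fixingSubgroup_iff] at h1 ⊢
  rintro x ⟨y, hy, rfl⟩
  have := h1 y hy
  simp only [inv_inv, AlgEquiv.mul_apply] at this
  have h2 := congrArg σ this
  simpa using h2

theorem isUnramifiedOutside_normalClosure {S : Finset Nat.Primes} {E : NF}
    (hE : E.IsUnramifiedOutside S) :
    (IntermediateField.normalClosure ℚ E Qbar).IsUnramifiedOutside S := by
  refine ⟨finiteDimensional_normalClosure E hE.1, fun q hq A hA => ?_⟩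
  rw [← IntermediateField.le_iff_le]
  refine le_trans (le_of_eq (IntermediateField.normalClosure_def'' E)) ?_
  refine iSup_le fun σ => ?_
  rw [IntermediateField.le_iff_le]
  exact isUnramifiedOutside_map hE σ q hq A hA

/-! ### level structures on `GQ` -/

/-- all number fields -/
def Lall : Levels GQ :=
  Levels.ofBase {U | ∃ E : NF, FiniteDimensional ℚ E ∧ U = E.fixingSubgroup}
    ⟨_, ⊥, inferInstance, rfl⟩
    (by
      rintro _ ⟨E, hE, rfl⟩ _ ⟨E', hE', rfl⟩
      exact ⟨_, ⟨E ⊔ E', IntermediateField.finiteDimensional_sup E E', rfl⟩,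
        (IntermediateField.fixingSubgroup_sup).le⟩)
    (by
      rintro _ ⟨E, hE, rfl⟩
      exact ⟨_, ⟨_, finiteDimensional_normalClosure E hE, rfl⟩,
        IntermediateField.fixingSubgroup_antitone E.le_normalClosure,
        normal_fixingSubgroup_normalClosure E,
        finiteIndex_fixingSubgroup _ (finiteDimensional_normalClosure E hE)⟩)

/-- number fields unramified outside `S` -/
def LS (S : Finset Nat.Primes) : Levels GQ :=
  Levels.ofBase {U | ∃ E : NF, E.IsUnramifiedOutside S ∧ U = E.fixingSubgroup}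
    ⟨_, ⊥, IntermediateField.isUnramifiedOutside_bot S, rfl⟩
    (by
      rintro _ ⟨E, hE, rfl⟩ _ ⟨E', hE', rfl⟩
      exact ⟨_, ⟨E ⊔ E', hE.sup hE', rfl⟩, (IntermediateField.fixingSubgroup_sup).le⟩)
    (by
      rintro _ ⟨E, hE, rfl⟩
      exact ⟨_, ⟨_, isUnramifiedOutside_normalClosure hE, rfl⟩,
        IntermediateField.fixingSubgroup_antitone E.le_normalClosure,
        normal_fixingSubgroup_normalClosure E,
        finiteIndex_fixingSubgroup _ (finiteDimensional_normalClosure E hE.1)⟩)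

theorem Lall_isOpen_iff {U : Subgroup GQ} :
    Lall.IsOpen U ↔ ∃ E : NF, FiniteDimensional ℚ E ∧ E.fixingSubgroup ≤ U := by
  constructor
  · rintro ⟨_, ⟨E, hE, rfl⟩, h⟩; exact ⟨E, hE, h⟩
  · rintro ⟨E, hE, h⟩; exact ⟨_, ⟨E, hE, rfl⟩, h⟩

theorem LS_isOpen_iff {S : Finset Nat.Primes} {U : Subgroup GQ} :
    (LS S).IsOpen U ↔ ∃ E : NF, E.IsUnramifiedOutside S ∧ E.fixingSubgroup ≤ U := by
  constructor
  · rintro ⟨_, ⟨E, hE, rfl⟩, h⟩; exact ⟨E, hE, h⟩
  · rintro ⟨E, hE, h⟩; exact ⟨_, ⟨E, hE, rfl⟩, h⟩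

theorem LS_le_Lall {S : Finset Nat.Primes} (U : Subgroup GQ) (h : (LS S).IsOpen U) :
    Lall.IsOpen U := by
  obtain ⟨E, hE, h⟩ := LS_isOpen_iff.1 h
  exact Lall_isOpen_iff.2 ⟨E, hE.1, h⟩

theorem isOpen_sub_iff {H : Subgroup GQ} {V : Subgroup H} :
    (Lall.sub H).IsOpen V ↔ IsOpenIn H (V.map H.subtype) := by
  constructor
  · rintro ⟨U, hU, h⟩
    obtain ⟨E, hE, hEU⟩ := Lall_isOpen_iff.1 hU
    refine ⟨Subgroup.map_subtype_le V, E, hE, fun x hx => ?_⟩
    exact Subgroup.mem_map.2 ⟨⟨x, hx.1⟩, h (hEU hx.2), rfl⟩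
  · rintro ⟨-, E, hE, h⟩
    refine ⟨E.fixingSubgroup, Lall_isOpen_iff.2 ⟨E, hE, le_rfl⟩, fun x hx => ?_⟩
    obtain ⟨y, hy, hyx⟩ := Subgroup.mem_map.1 (h ⟨x.2, hx⟩)
    have : y = x := Subtype.ext hyx
    exact this ▸ hy

/-! ### representations -/

/-- the one-dimensional representation attached to a character -/
def chr {k H : Type} [CommRing k] [Group H] (χ : H →* kˣ) : Representation k H k where
  toFun g := ((χ g : kˣ) : k) • LinearMap.id
  map_one' := by ext; simp
  map_mul' g h := by ext; simp [mul_comm]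

@[simp] theorem chr_apply {k H : Type} [CommRing k] [Group H] (χ : H →* kˣ) (g : H) (a : k) :
    chr χ g a = ((χ g : kˣ) : k) * a := rfl

variable (p : ℕ) [Fact p.Prime]

/-- `μ_p` as a representation of `GQ` on `ZMod p` -/
def mu : Representation (ZMod p) GQ (ZMod p) := chr (cycloChar p)

@[simp] theorem mu_apply (g : GQ) (a : ZMod p) : mu p g a = ((cycloChar p g : (ZMod p)ˣ) : ZMod p) * a :=
  rfl

/-- `Qbar^×` as a `ℤ`-representation of `GQ` (written additively) -/
def Gm : Representation ℤ GQ (Additive Qbarˣ) where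
  toFun g := (MonoidHom.toAdditive (Units.map ((g : Qbar →ₐ[ℚ] Qbar) : Qbar →* Qbar))).toIntLinearMap
  map_one' := by ext x; rfl
  map_mul' g h := by ext x; rfl

@[simp] theorem Gm_apply (g : GQ) (x : Additive Qbarˣ) :
    (((Gm g x).toMul : Qbarˣ) : Qbar) = g ((x.toMul : Qbarˣ) : Qbar) := rfl

theorem exists_zeta : ∃ z : Qbarˣ, IsPrimitiveRoot z p := by
  have : NeZero p := ⟨(Fact.out : p.Prime).ne_zero⟩
  have : NeZero (p : Qbar) := ⟨Nat.cast_ne_zero.mpr (NeZero.ne p)⟩
  obtain ⟨z, hz⟩ := HasEnoughRootsOfUnity.exists_primitiveRoot Qbar p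
  exact ⟨hz.isUnit (NeZero.ne p) |>.unit, by
    rw [← IsPrimitiveRoot.coe_units_iff]; simpa using hz⟩

/-- a chosen primitive `p`-th root of unity -/
def zeta : Qbarˣ := Classical.choose (exists_zeta p)

theorem zeta_spec : IsPrimitiveRoot (zeta p) p := Classical.choose_spec (exists_zeta p)

/-- `μ_p → Qbar^×`, `a ↦ ζ^a` -/
def iota : ZMod p →+ Additive Qbarˣ :=
  ZMod.lift p ⟨zmultiplesHom _ (Additive.ofMul (zeta p)), by
    simp only [zmultiplesHom_apply, natCast_zsmul]
    rw [← ofMul_pow, (zeta_spec p).pow_eq_one]; rfl⟩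

theorem iota_intCast (a : ℤ) : iota p (a : ZMod p) = Additive.ofMul (zeta p ^ a) := by
  simp [iota, ZMod.lift_coe, ofMul_zpow]

theorem iota_apply (a : ZMod p) : iota p a = Additive.ofMul (zeta p ^ a.val) := by
  have : NeZero p := ⟨(Fact.out : p.Prime).ne_zero⟩
  have := iota_intCast p (a.val : ℤ)
  rw [Int.cast_natCast, ZMod.natCast_zmod_val, zpow_natCast] at this
  exact this

theorem iota_injective : Function.Injective (iota p) := by
  have : NeZero p := ⟨(Fact.out : p.Prime).ne_zero⟩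
  intro a b h
  rw [iota_apply, iota_apply] at h
  have h' : zeta p ^ a.val = zeta p ^ b.val := h
  exact ZMod.val_injective p ((zeta_spec p).pow_inj (ZMod.val_lt a) (ZMod.val_lt b) h')

theorem mem_range_iota_iff (x : Additive Qbarˣ) :
    x ∈ Set.range (iota p) ↔ x.toMul ^ p = 1 := by
  have : NeZero p := ⟨(Fact.out : p.Prime).ne_zero⟩
  constructor
  · rintro ⟨a, rfl⟩
    rw [iota_apply, toMul_ofMul, ← pow_mul, mul_comm, pow_mul, (zeta_spec p).pow_eq_one, one_pow]
  · intro h
    have hz : IsPrimitiveRoot ((zeta p : Qbarˣ) : Qbar) p :=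
      IsPrimitiveRoot.coe_units_iff.2 (zeta_spec p)
    have h' : ((x.toMul : Qbarˣ) : Qbar) ^ p = 1 := by
      rw [← Units.val_pow_eq_pow_val, h]; rfl
    obtain ⟨i, -, hi⟩ := hz.eq_pow_of_pow_eq_one h'
    refine ⟨(i : ZMod p), ?_⟩
    have := iota_intCast p (i : ℤ)
    rw [Int.cast_natCast, zpow_natCast] at this
    rw [this]
    apply Additive.toMul.injective
    apply Units.ext
    rw [← hi]; rfl

/-- the cyclotomic character describes the action on `p`-th roots of unity -/
theorem cycloChar_spec (g : GQ) (t : Qbarˣ) (ht : t ^ p = 1) :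
    g (t : Qbar) = (t : Qbar) ^ ((cycloChar p g : (ZMod p)ˣ) : ZMod p).val := by
  have : NeZero p := ⟨(Fact.out : p.Prime).ne_zero⟩
  exact modularCyclotomicCharacter.spec (AlgebraicClosure ℚ) (card_rootsOfUnity_eq_self p)
    (g : AlgebraicClosure ℚ ≃+* AlgebraicClosure ℚ) ((mem_rootsOfUnity p t).2 ht)

theorem iota_compat (g : GQ) (a : ZMod p) : iota p (mu p g a) = Gm g (iota p a) := by
  have : NeZero p := ⟨(Fact.out : p.Prime).ne_zero⟩
  apply Additive.toMul.injective
  apply Units.ext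
  rw [Gm_apply]
  have h1 : ((iota p a).toMul) ^ p = 1 := (mem_range_iota_iff p _).1 ⟨a, rfl⟩
  rw [cycloChar_spec p g _ h1, mu_apply]
  set c := ((cycloChar p g : (ZMod p)ˣ) : ZMod p) with hc
  have h2 : iota p (c * a) = c.val • iota p a := by
    conv_lhs => rw [← ZMod.natCast_zmod_val c]
    rw [← nsmul_eq_mul, map_nsmul]
  rw [h2]
  rfl

/-- the Kummer cochain of `β`: `g β / β = ζ ^ (kum p β g)` (junk if `g β / β` is not in `μ_p`) -/
def kum (β : Qbarˣ) (g : GQ) : ZMod p :=
  Function.invFun (iota p) (Gm g (Additive.ofMul β) - Additive.ofMul β)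

theorem iota_kum (β : Qbarˣ) (g : GQ) (h : g ((β : Qbar) ^ p) = (β : Qbar) ^ p) :
    iota p (kum p β g) = Gm g (Additive.ofMul β) - Additive.ofMul β := by
  apply Function.invFun_eq
  change _ ∈ Set.range (iota p)
  rw [mem_range_iota_iff]
  apply Units.ext
  have h0 : (β : Qbar) ≠ 0 := β.ne_zero
  have h1 : (((Gm g (Additive.ofMul β) - Additive.ofMul β).toMul : Qbarˣ) : Qbar)
      = g (β : Qbar) / β := by
    rw [toMul_sub, Units.val_div_eq_div_val, Gm_apply]; rfl
  rw [Units.val_pow_eq_pow_val, h1, div_pow, ← map_pow, h, div_self (pow_ne_zero _ h0)]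
  rfl

end Fermat.Agent.S55

end
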