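import Fermat.Agent.S55.Arith.Kummer
import Fermat.Agent.S55.L.Kummer
import Fermat.Agent.S55.L.CycRes
import Fermat.Agent.S55.Coh.Flat
import Fermat.Agent.S55.G.BridgeDefs

/-!
# S55: Kummer theory / cyclic classes for subgroups of `GQ`, flat form
TASK S55/B-CycFlat.

`W' ≤ W ≤ GQ`.  `gmDatum p W` is the Kummer datum of `↥W`.  Compatibility of `ι2`, `cycCl` with the
flat restriction maps `Pair.resLE` (everything is `rfl` on cochains: use `ι2_mk`, `Pair.map2_mk`,
`H2.mk_surjective`), and translation of `normSub` (image of `cores0`) into the `Fix`-language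
`G.IsNormFrom` (use `cores0_cyclic`, `mem_H0_Gm_iff`; the norm does not depend on the choice of the
generator `t`: `G.prod_pow_eq_of_not_mem` in `G/BridgeGal` or a direct argument: `t = σ^j n`).
-/

set_option autoImplicit false

noncomputable section

namespace Fermat.Agent.S55

open Places ExtCitation

variable (p : ℕ) [Fact p.Prime]

/-- `ι_*` commutes with flat restriction. -/
theorem ι2_resLE {W' W : Subgroup GQ} (h : W' ≤ W) (x : H2 (Lall.sub W) (rsub (mu p) W)) :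
    (gmDatum p W').ι2 ((Pair.resLE Lall (mu p) h).map2 x) =
      (Pair.resLE Lall Gm h).map2 ((gmDatum p W).ι2 x) := by
  obtain ⟨z, rfl⟩ := H2.mk_surjective _ _ x
  rw [KummerDatum.ι2_mk, Pair.map2_mk, Pair.map2_mk]
  exact (gmDatum p W').ι2_mk ((Pair.resLE Lall (mu p) h).z2 z)

/-- restriction of a level character. -/
theorem isLevel₁_comp_inclusion {m : ℕ} {W' W : Subgroup GQ} (h : W' ≤ W)
    (χ : ↥W →* Multiplicative (ZMod m)) (hχ : (Lall.sub W).IsLevel₁ χ) :
    (Lall.sub W').IsLevel₁ (χ.comp (Subgroup.inclusion h)) := by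
  obtain ⟨U, hU, hUχ⟩ := hχ
  refine ⟨U.comap (Subgroup.inclusion h), (Pair.resLE Lall Gm h).cont U hU, fun g s hs => ?_⟩
  simp only [MonoidHom.comp_apply]
  rw [map_mul (Subgroup.inclusion h)]
  exact hUχ _ _ hs

/-- cyclic classes commute with flat restriction. -/
theorem cycCl_resLE {m : ℕ} [NeZero m] {W' W : Subgroup GQ} (h : W' ≤ W)
    (χ : ↥W →* Multiplicative (ZMod m)) (hχ : (Lall.sub W).IsLevel₁ χ) (b : ↥(H0 (rsub Gm W))) :
    (Pair.resLE Lall Gm h).map2 (cycCl (Lall.sub W) (rsub Gm W) χ hχ b) =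
      cycCl (Lall.sub W') (rsub Gm W') (χ.comp (Subgroup.inclusion h))
        (isLevel₁_comp_inclusion h χ hχ) ((Pair.resLE Lall Gm h).map0 b) := by
  rw [cycCl, cycCl, Pair.map2_mk]
  rfl

/-- Hilbert 90 for a subgroup of `↥W`. -/
theorem h90_Gm_sub (W : Subgroup GQ) (V : Subgroup ↥W) :
    Z1 ((Lall.sub W).sub V) (rsub (rsub Gm W) V) ≤ B1 (rsub (rsub Gm W) V) :=
  LAux.Z1_le_B1_rsub_rsub Gm W V (h90_Gm _)

/-- the element of `H0 (rsub Gm W)` attached to a nonzero element of `Fix W`. -/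
def toH0 (W : Subgroup GQ) (b : Qbar) (hb : b ∈ Places.Fix W) (hb0 : b ≠ 0) : ↥(H0 (rsub Gm W)) :=
  ⟨Additive.ofMul (Units.mk0 b hb0), (mem_H0_Gm_iff W _).2 hb⟩

/-- the underlying element of `Qbar`. -/
def ofH0 {W : Subgroup GQ} (b : ↥(H0 (rsub Gm W))) : Qbar := (((b : Additive Qbarˣ).toMul : Qbarˣ) : Qbar)

theorem ofH0_mem {W : Subgroup GQ} (b : ↥(H0 (rsub Gm W))) : ofH0 b ∈ Places.Fix W :=
  (mem_H0_Gm_iff W _).1 b.2

theorem ofH0_ne_zero {W : Subgroup GQ} (b : ↥(H0 (rsub Gm W))) : ofH0 b ≠ 0 :=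
  ((b : Additive Qbarˣ).toMul : Qbarˣ).ne_zero

@[simp] theorem ofH0_toH0 (W : Subgroup GQ) (b : Qbar) (hb : b ∈ Places.Fix W) (hb0 : b ≠ 0) :
    ofH0 (toH0 W b hb hb0) = b := rfl

theorem ofH0_resLE {W' W : Subgroup GQ} (h : W' ≤ W) (b : ↥(H0 (rsub Gm W))) :
    ofH0 ((Pair.resLE Lall Gm h).map0 b) = ofH0 b := rfl

namespace CycFlat

theorem normSub_congr {H : Type} [Group H] (L : Levels H) {A : Type} [AddCommGroup A]
    (α : Representation ℤ H A) [Smooth L α] {N N' : Subgroup H} (h : N = N') (hN : L.IsOpen N)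
    (hN' : L.IsOpen N') : normSub L α N hN = normSub L α N' hN' := by
  subst h; rfl

theorem coe_toMul_sum {ι : Type} (s : Finset ι) (f : ι → Additive Qbarˣ) :
    ((((∑ i ∈ s, f i : Additive Qbarˣ)).toMul : Qbarˣ) : Qbar) =
      ∏ i ∈ s, (((f i).toMul : Qbarˣ) : Qbar) := by
  rw [toMul_sum, Units.coe_prod]

variable {p}

/-- norms, with a chosen generator. -/
theorem mem_normSub_iff {W W1 : Subgroup GQ}
    (χ : ↥W →* Multiplicative (ZMod p)) (hχ : (Lall.sub W).IsLevel₁ χ)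
    (hs : Function.Surjective χ) (hker : χ.ker = W1.subgroupOf W) (hle : W1 ≤ W)
    (σ : ↥W) (hσ : χ σ = Multiplicative.ofAdd 1) (b : ↥(H0 (rsub Gm W))) :
    b ∈ normSub (Lall.sub W) (rsub Gm W) χ.ker (isOpen_ker_of_isLevel χ hχ) ↔
      ∃ c ∈ Places.Fix W1, c ≠ 0 ∧ ∏ i ∈ Finset.range p, ((σ : GQ) ^ i) c = ofH0 b := by
  have key : ∀ c : ↥(H0 (rsub (rsub Gm W) χ.ker)),
      ofH0 (cores0 (Lall.sub W) (rsub Gm W) χ.ker (isOpen_ker_of_isLevel χ hχ) c) =
        ∏ i ∈ Finset.range p, ((σ : GQ) ^ i) ((((c : Additive Qbarˣ).toMul : Qbarˣ) : Qbar)) := by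
    intro c
    rw [ofH0, cores0_cyclic (Lall.sub W) (rsub Gm W) χ hχ hs σ hσ c, coe_toMul_sum]
    rfl
  constructor
  · rintro ⟨c, rfl⟩
    refine ⟨(((c : Additive Qbarˣ).toMul : Qbarˣ) : Qbar), ?_, Units.ne_zero _, (key c).symm⟩
    intro g
    have hg : (⟨(g : GQ), hle g.2⟩ : ↥W) ∈ χ.ker := by
      rw [hker]; exact g.2
    have := congrArg (fun y : Additive Qbarˣ => ((y.toMul : Qbarˣ) : Qbar)) (c.2 ⟨_, hg⟩)
    exact this
  · rintro ⟨c, hc, hc0, hprod⟩
    have hmem : Additive.ofMul (Units.mk0 c hc0) ∈ H0 (rsub (rsub Gm W) χ.ker) := by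
      intro g
      apply Additive.toMul.injective
      apply Units.ext
      have hg : ((g : ↥W) : GQ) ∈ W1 := by
        have h1 : (g : ↥W) ∈ W1.subgroupOf W := hker ▸ g.2
        exact h1
      exact hc ⟨_, hg⟩
    refine ⟨⟨_, hmem⟩, ?_⟩
    apply Subtype.ext
    apply Additive.toMul.injective
    apply Units.ext
    have := key ⟨_, hmem⟩
    rw [ofH0] at this
    rw [this]
    exact hprod

end CycFlat

/-- norms for a surjective character `χ : W → ℤ/p` with kernel `W1`, in the `Fix`-language. -/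
theorem mem_normSub_iff_isNormFrom {W W1 : Subgroup GQ}
    (χ : ↥W →* Multiplicative (ZMod p)) (hχ : (Lall.sub W).IsLevel₁ χ)
    (hs : Function.Surjective χ) (hker : χ.ker = W1.subgroupOf W) (hle : W1 ≤ W)
    (b : ↥(H0 (rsub Gm W))) :
    b ∈ normSub (Lall.sub W) (rsub Gm W) χ.ker (isOpen_ker_of_isLevel χ hχ) ↔
      G.IsNormFrom p W W1 (ofH0 b) := by
  constructor
  · intro hb
    obtain ⟨σ, hσ⟩ := hs (Multiplicative.ofAdd 1)
    obtain ⟨c, hc, hc0, hprod⟩ := (CycFlat.mem_normSub_iff χ hχ hs hker hle σ hσ b).1 hb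
    refine ⟨σ, σ.2, fun h1 => ?_, c, hc, hc0, hprod⟩
    have h2 : σ ∈ χ.ker := by rw [hker]; exact h1
    rw [MonoidHom.mem_ker, hσ] at h2
    have h3 : (1 : ZMod p) = 0 := Multiplicative.ofAdd.injective h2
    exact one_ne_zero h3
  · rintro ⟨t, ht, ht1, c, hc, hc0, hprod⟩
    -- rescale the character so that it takes the value `1` at `t`
    set a : ZMod p := Multiplicative.toAdd (χ ⟨t, ht⟩) with ha
    have ha0 : a ≠ 0 := by
      intro h0
      apply ht1
      have h2 : (⟨t, ht⟩ : ↥W) ∈ χ.ker := by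
        rw [MonoidHom.mem_ker]
        exact Multiplicative.toAdd.injective h0
      rw [hker] at h2
      exact h2
    let χ' : ↥W →* Multiplicative (ZMod p) :=
      (AddMonoidHom.toMultiplicative (AddMonoidHom.mulLeft a⁻¹)).comp χ
    have hχ'a : ∀ g, χ' g = Multiplicative.ofAdd (a⁻¹ * Multiplicative.toAdd (χ g)) := fun g => rfl
    have hk : χ'.ker = χ.ker := by
      ext g
      rw [MonoidHom.mem_ker, MonoidHom.mem_ker, hχ'a]
      constructor
      · intro h
        have h1 : a⁻¹ * Multiplicative.toAdd (χ g) = 0 := Multiplicative.ofAdd.injective h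
        rcases mul_eq_zero.mp h1 with h2 | h2
        · exact absurd h2 (inv_ne_zero ha0)
        · exact Multiplicative.toAdd.injective h2
      · intro h
        rw [h]
        simp
    have hχ' : (Lall.sub W).IsLevel₁ χ' :=
      hχ.comp (AddMonoidHom.toMultiplicative (AddMonoidHom.mulLeft a⁻¹))
    have hs' : Function.Surjective χ' := by
      intro y
      obtain ⟨g, hg⟩ := hs (Multiplicative.ofAdd (a * Multiplicative.toAdd y))
      refine ⟨g, ?_⟩
      rw [hχ'a, hg, toAdd_ofAdd, ← mul_assoc, inv_mul_cancel₀ ha0, one_mul, ofAdd_toAdd]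
    have hσ' : χ' ⟨t, ht⟩ = Multiplicative.ofAdd 1 := by
      rw [hχ'a, ← ha, inv_mul_cancel₀ ha0]
    rw [← CycFlat.normSub_congr (Lall.sub W) (rsub Gm W) hk (isOpen_ker_of_isLevel χ' hχ')
      (isOpen_ker_of_isLevel χ hχ)]
    exact (CycFlat.mem_normSub_iff χ' hχ' hs' (hk.trans hker) hle ⟨t, ht⟩ hσ' b).2
      ⟨c, hc, hc0, hprod⟩

end Fermat.Agent.S55

end
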