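import Fermat.Agent.S55.Arith.Defs
import Fermat.Agent.S55.Places.Galois
import Fermat.Agent.S55.Coh.Level

/-!
# S55 (F0): Hilbert 90 for level cocycles of an arbitrary subgroup of `GQ`
TASK S55/L-H90.

`c : V → Qbarˣ` a level cocycle, right invariant under `N = V ⊓ Fix-group(E)`, `E` a number field.
The maps `g|_E : E → Qbar`, `g ∈ V/N`, are pairwise distinct, hence linearly independent
(`linearIndependent_monoidHom`): there is `x ∈ E` with `β = ∑_{g ∈ V/N} c(g) g(x) ≠ 0`.
`h β = β / c(h)`, so `c = d0 (β⁻¹)`.  (Neither normality of `N` nor `E` Galois is needed: `V` acts on the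
left cosets `V/N` and `g ↦ c(g) g(x)` is right `N`-invariant.)
-/

set_option autoImplicit false

noncomputable section

namespace Fermat.Agent.S55

open Places

theorem h90_Gm (V : Subgroup GQ) : Z1 (Lall.sub V) (rsub Gm V) ≤ B1 (rsub Gm V) := by
  classical
  intro c hc
  rw [mem_Z1] at hc
  obtain ⟨hcoc, U, ⟨U0, hU0, hU0U⟩, hUc⟩ := hc
  obtain ⟨E, hE, hEU⟩ := Lall_isOpen_iff.1 hU0
  set N : Subgroup V := E.fixingSubgroup.subgroupOf V with hNdef
  have hN : (Lall.sub V).IsOpen N :=
    ⟨E.fixingSubgroup, Lall_isOpen_iff.2 ⟨E, hE, le_rfl⟩, le_rfl⟩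
  have hfin : Finite (V ⧸ N) := (Lall.sub V).finite_quotient hN
  let _ := Fintype.ofFinite (V ⧸ N)
  have hNc : ∀ g : V, ∀ s ∈ N, c (g * s) = c g := fun g s hs => hUc g s (hU0U (hEU hs))
  have hNfix : ∀ s ∈ N, ∀ x : E, ((s : V) : GQ) (x : Qbar) = x := fun s hs x =>
    (IntermediateField.mem_fixingSubgroup_iff E _).1 hs x x.2
  let cm : V → Qbar := fun g => (((c g).toMul : Qbarˣ) : Qbar)
  have hcm0 : ∀ g, cm g ≠ 0 := fun g => Units.ne_zero _
  have hcm : ∀ g h : V, cm (g * h) = (g : GQ) (cm h) * cm g := by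
    intro g h
    simp only [cm, hcoc g h]
    rfl
  let φ : V ⧸ N → (E →* Qbar) := fun q =>
    { toFun := fun x => ((q.out : V) : GQ) (x : Qbar)
      map_one' := by simp
      map_mul' := fun a b => by simp }
  have hφ : Function.Injective φ := by
    intro q q' h
    rw [← QuotientGroup.out_eq' q, ← QuotientGroup.out_eq' q', QuotientGroup.eq]
    show ((q.out⁻¹ * q'.out : V) : GQ) ∈ E.fixingSubgroup
    rw [IntermediateField.mem_fixingSubgroup_iff]
    intro x hx
    have h1 : ((q.out : V) : GQ) x = ((q'.out : V) : GQ) x :=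
      congrArg (fun f : E →* Qbar => f ⟨x, hx⟩) h
    show ((q.out : V) : GQ)⁻¹ (((q'.out : V) : GQ) x) = x
    rw [← h1]
    exact AlgEquiv.symm_apply_apply _ x
  have hli := (linearIndependent_monoidHom E Qbar).comp φ hφ
  obtain ⟨x, hx⟩ : ∃ x : E, ∑ q : V ⧸ N, cm q.out * ((q.out : V) : GQ) (x : Qbar) ≠ 0 := by
    by_contra hcon
    push Not at hcon
    have h0 := Fintype.linearIndependent_iff.1 hli (fun q => cm q.out) (by
      funext x
      rw [Finset.sum_apply]
      exact hcon x) ((1 : V) : V ⧸ N)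
    exact hcm0 _ h0
  set β : Qbar := ∑ q : V ⧸ N, cm q.out * ((q.out : V) : GQ) (x : Qbar) with hβ
  let F : V → Qbar := fun g => cm g * (g : GQ) (x : Qbar)
  have hF : ∀ g : V, ∀ s ∈ N, F (g * s) = F g := by
    intro g s hs
    simp only [F, cm, hNc g s hs]
    congr 1
    show (g : GQ) (((s : V) : GQ) (x : Qbar)) = _
    rw [hNfix s hs x]
  have hFout : ∀ g : V, F ((g : V ⧸ N).out) = F g := by
    intro g
    obtain ⟨s, hs⟩ := QuotientGroup.mk_out_eq_mul N g
    rw [hs, hF g s s.2]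
  have hsum : ∀ h : V, ∑ q : V ⧸ N, F (h * q.out) = β := by
    intro h
    rw [hβ]
    refine Fintype.sum_equiv (MulAction.toPerm h) _ _ fun q => ?_
    show F (h * q.out) = F ((h • q).out)
    conv_rhs => rw [← QuotientGroup.out_eq' q]
    exact (hFout (h * q.out)).symm
  have hact : ∀ h : V, (h : GQ) β * cm h = β := by
    intro h
    have h1 : (h : GQ) β * cm h = ∑ q : V ⧸ N, F (h * q.out) := by
      rw [hβ, map_sum, Finset.sum_mul]
      refine Finset.sum_congr rfl fun q _ => ?_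
      simp only [F, hcm h q.out, map_mul]
      show _ = _ * (h : GQ) (((q.out : V) : GQ) (x : Qbar))
      ring
    rw [h1, hsum h]
  rw [mem_B1]
  refine ⟨Additive.ofMul (Units.mk0 β hx)⁻¹, fun h => ?_⟩
  apply Additive.toMul.injective
  apply Units.ext
  rw [toMul_sub, Units.val_div_eq_div_val]
  show cm h = (h : GQ) (β⁻¹) / β⁻¹
  have hhβ : (h : GQ) β ≠ 0 := by simpa using hx
  rw [map_inv₀, inv_div_inv, eq_div_iff hhβ, mul_comm]
  exact hact h

end Fermat.Agent.S55

end
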