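import Fermat.Agent.S55.Arith.H90
import Fermat.Agent.S55.L.Restrict

/-!
# S55: the Kummer datum of an arbitrary subgroup of `GQ`
-/

set_option autoImplicit false

noncomputable section

namespace Fermat.Agent.S55

open Places ExtCitation

attribute [local instance] isAlgClosureQbar

instance smooth_Gm : Smooth Lall Gm := ⟨fun x => by
  have hint : IsIntegral ℚ ((x.toMul : Qbarˣ) : Qbar) :=
    (Algebra.IsAlgebraic.isAlgebraic (R := ℚ) _).isIntegral
  refine ⟨(IntermediateField.adjoin ℚ {((x.toMul : Qbarˣ) : Qbar)}).fixingSubgroup,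
    Lall_isOpen_iff.2 ⟨_, IntermediateField.adjoin.finiteDimensional hint, le_rfl⟩, fun s hs => ?_⟩
  apply Additive.toMul.injective
  apply Units.ext
  rw [Gm_apply]
  exact (IntermediateField.mem_fixingSubgroup_iff _ _).1 hs _
    (IntermediateField.mem_adjoin_simple_self ℚ _)⟩

variable (p : ℕ) [Fact p.Prime]

instance smooth_mu : Smooth Lall (mu p) := ⟨fun a => by
  obtain ⟨U, hU, h⟩ := Smooth.exists_isOpen (L := Lall) (ρ := Gm) (iota p a)
  refine ⟨U, hU, fun s hs => iota_injective p ?_⟩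
  rw [iota_compat, h s hs]⟩

theorem Gm_div (a : Additive Qbarˣ) : ∃ b : Additive Qbarˣ, p • b = a := by
  have hp : 0 < p := (Fact.out : p.Prime).pos
  obtain ⟨z, hz⟩ := IsAlgClosed.exists_pow_nat_eq ((a.toMul : Qbarˣ) : Qbar) hp
  have hz0 : z ≠ 0 := by
    rintro rfl
    rw [zero_pow hp.ne'] at hz
    exact (a.toMul : Qbarˣ).ne_zero hz.symm
  refine ⟨Additive.ofMul (Units.mk0 z hz0), ?_⟩
  apply Additive.toMul.injective
  apply Units.ext
  rw [toMul_nsmul, toMul_ofMul, Units.val_pow_eq_pow_val, Units.val_mk0, hz]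

/-- the Kummer datum of an arbitrary subgroup of `GQ`. -/
abbrev gmDatum (V : Subgroup GQ) : KummerDatum p ↥V (Lall.sub V) where
  A := Additive Qbarˣ
  α := rsub Gm V
  smoothα := Smooth.rsub V
  μ := rsub (mu p) V
  smoothμ := Smooth.rsub V
  ι := iota p
  ι_inj := iota_injective p
  ι_surj a ha := by
    have : a ∈ Set.range (iota p) := by
      rw [mem_range_iota_iff, ← toMul_nsmul, ha]; rfl
    exact this
  ι_equiv g x := (iota_compat p g x).symm
  div := Gm_div p
  h90 V' _ := LAux.Z1_le_B1_rsub_rsub Gm V V' (h90_Gm _)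

@[simp] lemma gmDatum_A (V : Subgroup GQ) : (gmDatum p V).A = Additive Qbarˣ := rfl
@[simp] lemma gmDatum_α (V : Subgroup GQ) : (gmDatum p V).α = rsub Gm V := rfl
@[simp] lemma gmDatum_μ (V : Subgroup GQ) : (gmDatum p V).μ = rsub (mu p) V := rfl
@[simp] lemma gmDatum_ι (V : Subgroup GQ) : (gmDatum p V).ι = iota p := rfl

theorem gmDatum_isSplit {V : Subgroup GQ} (hV : V ≤ (cycloChar p).ker) : (gmDatum p V).IsSplit := by
  intro g x
  have : cycloChar p (g : GQ) = 1 := hV g.2
  change mu p (g : GQ) x = x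
  rw [mu_apply, this]
  simp

/-- invariants of `Gm` are the units of the fixed field. -/
theorem mem_H0_Gm_iff (V : Subgroup GQ) (x : Additive Qbarˣ) :
    x ∈ H0 (rsub Gm V) ↔ ((x.toMul : Qbarˣ) : Qbar) ∈ Places.Fix V := by
  constructor
  · intro h g
    have := congrArg (fun y : Additive Qbarˣ => ((y.toMul : Qbarˣ) : Qbar)) (h g)
    exact this
  · intro h g
    apply Additive.toMul.injective
    apply Units.ext
    exact h g

end Fermat.Agent.S55

end
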